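import Fermat.Agent.HeckeH1.SLMod
import Mathlib.LinearAlgebra.Matrix.GeneralLinearGroup.Defs
import Mathlib.GroupTheory.Solvable

/-!
# Subgroups of `GL₂` fixing a line

A group fixing a line is conjugate to a group of upper triangular matrices, hence solvable. In
`SL₂` of a finite field with `q` elements the upper triangular matrices form a subgroup of order
`q (q - 1)` and index `q + 1`, and this bounds every subgroup fixing a line.
-/

set_option autoImplicit false
set_option linter.style.haveILetI false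

noncomputable section

open Matrix
open scoped MatrixGroups

namespace FA.DicksonSubgroups

variable {F : Type*} [Field F]

/-- The subgroup `G` fixes a line. -/
def FixesLine (G : Subgroup (GL (Fin 2) F)) : Prop :=
  ∃ v : Fin 2 → F, v ≠ 0 ∧ ∀ A ∈ G, ∃ a : F, (A : Matrix (Fin 2) (Fin 2) F) *ᵥ v = a • v

/-- A change of basis making a given vector the first one. -/
theorem exists_conj_upper {v : Fin 2 → F} (hv : v ≠ 0) :
    ∃ P : GL (Fin 2) F, ∀ (A : GL (Fin 2) F) (a : F),
      (A : Matrix (Fin 2) (Fin 2) F) *ᵥ v = a • v →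
        ((P⁻¹ * A * P : GL (Fin 2) F) : Matrix (Fin 2) (Fin 2) F) 1 0 = 0 := by
  obtain ⟨M, hM, hcol⟩ : ∃ M : Matrix (Fin 2) (Fin 2) F, M.det ≠ 0 ∧ ∀ i, M i 0 = v i := by
    by_cases h0 : v 0 = 0
    · refine ⟨!![v 0, 1; v 1, 0], ?_, fun i => by fin_cases i <;> rfl⟩
      have h1 : v 1 ≠ 0 := fun h1 => hv (funext fun i => by fin_cases i <;> assumption)
      simp [Matrix.det_fin_two, h1]
    · exact ⟨!![v 0, 0; v 1, 1], by simp [Matrix.det_fin_two, h0],
        fun i => by fin_cases i <;> rfl⟩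
  obtain ⟨P, hP⟩ : ∃ P : GL (Fin 2) F, (P : Matrix (Fin 2) (Fin 2) F) = M :=
    ((Matrix.isUnit_iff_isUnit_det M).2 hM.isUnit : IsUnit M)
  refine ⟨P, fun A a h => ?_⟩
  have he : (P : Matrix (Fin 2) (Fin 2) F) *ᵥ Pi.single 0 1 = v := by
    rw [Matrix.mulVec_single_one, hP]
    exact funext hcol
  have h1 : ((P⁻¹ * A * P : GL (Fin 2) F) : Matrix (Fin 2) (Fin 2) F) *ᵥ Pi.single 0 1 =
      a • Pi.single 0 1 := by
    conv_lhs => rw [Units.val_mul, Units.val_mul, ← mulVec_mulVec, ← mulVec_mulVec, he, h,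
      mulVec_smul, ← he, mulVec_mulVec, Units.inv_mul, one_mulVec]
  have h2 := congrFun h1 1
  rw [Matrix.mulVec_single_one, Matrix.col_apply] at h2
  simpa using h2

/-- **A group fixing a line is solvable.** -/
theorem FixesLine.isSolvable {G : Subgroup (GL (Fin 2) F)} (h : FixesLine G) :
    Group.IsSolvable G := by
  obtain ⟨v, hv, hG⟩ := h
  obtain ⟨P, hP⟩ := exists_conj_upper hv
  set c : G →* GL (Fin 2) F := (MulAut.conj P⁻¹).toMonoidHom.comp G.subtype
  have hc : Function.Injective c := (MulAut.conj P⁻¹).injective.comp G.subtype_injective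
  have h10 : ∀ g : G, (c g : Matrix (Fin 2) (Fin 2) F) 1 0 = 0 := fun g => by
    obtain ⟨a, ha⟩ := hG g g.2
    have := hP g a ha
    simpa [c] using this
  let χ : G →* F × F :=
    { toFun := fun g => ((c g : Matrix (Fin 2) (Fin 2) F) 0 0, (c g : Matrix (Fin 2) (Fin 2) F) 1 1)
      map_one' := by simp
      map_mul' := fun x y => by
        rw [map_mul, Units.val_mul]
        simp [Matrix.mul_apply, Fin.sum_univ_two, h10] }
  haveI : Group.IsSolvable χ.toHomUnits.range := Group.isSolvable_of_comm fun x y => mul_comm x y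
  haveI : Group.IsSolvable χ.toHomUnits.ker := Group.isSolvable_of_comm fun x y => by
    have hd : ∀ z : χ.toHomUnits.ker, (c (z : G) : Matrix (Fin 2) (Fin 2) F) 0 0 = 1 ∧
        (c (z : G) : Matrix (Fin 2) (Fin 2) F) 1 1 = 1 := fun z => by
      have h := congrArg Units.val (MonoidHom.mem_ker.1 z.2)
      exact Prod.ext_iff.1 h
    refine Subtype.ext (hc (Units.ext ?_))
    simp only [Subgroup.coe_mul, map_mul, Units.val_mul]
    ext i j
    fin_cases i <;> fin_cases j <;>
      simp [Matrix.mul_apply, Fin.sum_univ_two, hd x, hd y, h10, add_comm]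
  exact Group.isSolvable_of_ker_le_range χ.toHomUnits.ker.subtype χ.toHomUnits.rangeRestrict
    (by rw [Subgroup.range_subtype, MonoidHom.ker_rangeRestrict])

/-- The upper triangular subgroup of `SL₂`. -/
def borel (F : Type*) [Field F] : Subgroup SL(2, F) where
  carrier := {g | (g : Matrix (Fin 2) (Fin 2) F) 1 0 = 0}
  one_mem' := by simp
  mul_mem' {x y} hx hy := by
    simp only [Set.mem_ofPred_eq] at hx hy ⊢
    simp [Matrix.mul_apply, Fin.sum_univ_two, hx, hy]
  inv_mem' {x} hx := by
    simp only [Set.mem_ofPred_eq] at hx ⊢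
    rw [Matrix.SpecialLinearGroup.coe_inv, Matrix.adjugate_fin_two]
    simpa using hx

theorem mem_borel {g : SL(2, F)} : g ∈ borel F ↔ (g : Matrix (Fin 2) (Fin 2) F) 1 0 = 0 := Iff.rfl

/-- The order of the upper triangular subgroup. -/
theorem card_borel [Finite F] : Nat.card (borel F) = (Nat.card F - 1) * Nat.card F := by
  rw [← Nat.card_units, ← Nat.card_prod]
  refine (Nat.card_congr (Equiv.ofBijective (fun x : Fˣ × F =>
    (⟨FA.HeckeH1.mkF (x.1 : F) x.2 0 (x.1 : F)⁻¹ (by simp), by simp [mem_borel]⟩ : borel F))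
    ⟨?_, ?_⟩)).symm
  · rintro ⟨u, b⟩ ⟨v, c⟩ h
    have h' := congrArg (fun g : borel F => ((g : SL(2, F)) : Matrix (Fin 2) (Fin 2) F)) h
    exact Prod.ext (Units.ext (congrFun (congrFun h' 0) 0)) (congrFun (congrFun h' 0) 1)
  · rintro ⟨g, hg⟩
    have hd : (g : Matrix (Fin 2) (Fin 2) F) 0 0 * (g : Matrix (Fin 2) (Fin 2) F) 1 1 = 1 := by
      have h := g.det_coe
      rw [Matrix.det_fin_two, mem_borel.1 hg, mul_zero, sub_zero] at h
      exact h
    refine ⟨(Units.mk0 _ (left_ne_zero_of_mul_eq_one hd), (g : Matrix (Fin 2) (Fin 2) F) 0 1),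
      Subtype.ext ?_⟩
    refine FA.HeckeH1.slf_ext ?_ ?_ ?_ ?_ <;> simp [mem_borel.1 hg]
    exact inv_eq_of_mul_eq_one_right hd

/-- The upper triangular subgroup has index `q + 1`. -/
theorem index_borel [Finite F] : (borel F).index = Nat.card F + 1 := by
  haveI := Fintype.ofFinite F
  have h := (borel F).card_mul_index
  rw [card_borel, FA.HeckeH1.card_SLF] at h
  have hq := Finite.one_lt_card (α := F)
  refine Nat.eq_of_mul_eq_mul_left (n := (Nat.card F - 1) * Nat.card F) (Nat.mul_pos ?_ ?_)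
    (h.trans (by ring))
  · omega
  · omega

/-- The centre is upper triangular. -/
theorem center_le_borel : Subgroup.center SL(2, F) ≤ borel F := fun g hg => by
  obtain ⟨r, -, hr⟩ := Matrix.SpecialLinearGroup.mem_center_iff.1 hg
  rw [mem_borel, ← hr]
  simp [Matrix.scalar_apply]

/-- **A subgroup of `SL₂` fixing a line has order at most `q (q - 1)`.** -/
theorem FixesLine.card_le [Finite F] {H : Subgroup SL(2, F)}
    (h : FixesLine (H.map Matrix.SpecialLinearGroup.toGL)) :
    Nat.card H ≤ (Nat.card F - 1) * Nat.card F := by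
  obtain ⟨v, hv, hH⟩ := h
  obtain ⟨P, hP⟩ := exists_conj_upper hv
  rw [← card_borel]
  set c : H → GL (Fin 2) F := fun g => P⁻¹ * Matrix.SpecialLinearGroup.toGL (g : SL(2, F)) * P
  have hdet : ∀ g : H, (c g : Matrix (Fin 2) (Fin 2) F).det = 1 := fun g => by
    simp only [c, Units.val_mul]
    rw [Matrix.det_mul_comm, ← mul_assoc, ← Units.val_mul, mul_inv_cancel, Units.val_one, one_mul]
    exact (g : SL(2, F)).det_coe
  have h10 : ∀ g : H, (c g : Matrix (Fin 2) (Fin 2) F) 1 0 = 0 := fun g => by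
    obtain ⟨a, ha⟩ := hH _ ⟨g, g.2, rfl⟩
    exact hP _ a ha
  refine Nat.card_le_card_of_injective (fun g => (⟨⟨_, hdet g⟩, h10 g⟩ : borel F)) fun x y hxy => ?_
  have h1 : c x = c y := Units.ext (congrArg (fun g : borel F => (g : SL(2, F)).1) hxy)
  exact Subtype.ext
    (Matrix.SpecialLinearGroup.toGL_injective (mul_left_cancel (mul_right_cancel h1)))

end FA.DicksonSubgroups

end
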