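import Fermat.Agent.Klein.ProjectiveImage
import Mathlib.Algebra.CharP.Lemmas

/-!
# Element orders in `PGL₂(𝔽_p)` prime to `p`

If `a, b` are the eigenvalues of a matrix of order prime to `p`, the Frobenius fixes them or
exchanges them, so `a ^ k = b ^ k` for `k = p - 1` or `k = p + 1`, and the `k`-th power is scalar.
-/

set_option autoImplicit false
set_option linter.style.haveILetI false

noncomputable section

open Matrix
open scoped MatrixGroups

namespace FA.DicksonSubgroups

variable {p : ℕ} [hp : Fact p.Prime]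

/-- **Element orders**: the class in `PGL₂(𝔽_p)` of an element of order prime to `p` has order
dividing `p - 1` or `p + 1`. -/
theorem orderOf_mk_dvd {A : GL (Fin 2) (ZMod p)} {e : ℕ} (he : ¬ p ∣ e) (hA : A ^ e = 1) :
    orderOf (ProjGenLinGroup.mk A) ∣ p - 1 ∨ orderOf (ProjGenLinGroup.mk A) ∣ p + 1 := by
  set i := algebraMap (ZMod p) (AlgebraicClosure (ZMod p)) with hi
  set B := GeneralLinearGroup.map (n := Fin 2) i A
  set t := i (A : Matrix (Fin 2) (Fin 2) (ZMod p)).trace with ht
  set d := i (A : Matrix (Fin 2) (Fin 2) (ZMod p)).det with hd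
  have hB : (B : Matrix (Fin 2) (Fin 2) (AlgebraicClosure (ZMod p))) =
      (A : Matrix (Fin 2) (Fin 2) (ZMod p)).map i := rfl
  have he' : (e : AlgebraicClosure (ZMod p)) ≠ 0 := fun h =>
    he ((CharP.cast_eq_zero_iff _ p e).1 h)
  have hBe : B ^ e = 1 := by rw [← map_pow, hA, map_one]
  have hfrob : ∀ x, i x ^ p = i x := fun x => by rw [← map_pow, ZMod.pow_card]
  obtain ⟨a, ha⟩ := IsAlgClosed.exists_root
    (Polynomial.C 1 * Polynomial.X ^ 2 + Polynomial.C (-t) * Polynomial.X + Polynomial.C d)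
    (by rw [Polynomial.degree_quadratic one_ne_zero]; decide)
  simp only [Polynomial.IsRoot.def, Polynomial.eval_add, Polynomial.eval_mul, Polynomial.eval_C,
    Polynomial.eval_pow, Polynomial.eval_X, one_mul] at ha
  set b := t - a with hb
  have hab : a * b = d := by rw [hb]; linear_combination -ha
  have hd0 : d ≠ 0 := (map_ne_zero i).2 ((Matrix.isUnit_iff_isUnit_det _).1 A.isUnit).ne_zero
  have ha0 : a ≠ 0 := left_ne_zero_of_mul (hab ▸ hd0)
  have hb0 : b ≠ 0 := right_ne_zero_of_mul (hab ▸ hd0)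
  obtain ⟨v, hv, hva⟩ : ∃ v, v ≠ 0 ∧
      (B : Matrix (Fin 2) (Fin 2) (AlgebraicClosure (ZMod p))) *ᵥ v = a • v := by
    obtain ⟨v, hv, h0⟩ := Matrix.exists_mulVec_eq_zero_iff.2
      (show ((B : Matrix (Fin 2) (Fin 2) (AlgebraicClosure (ZMod p))) - a • 1).det = 0 by
        rw [hB]
        simp [Matrix.det_fin_two, t, d, Matrix.trace_fin_two] at ha ⊢
        linear_combination ha)
    rw [sub_mulVec, smul_mulVec, one_mulVec, sub_eq_zero] at h0
    exact ⟨v, hv, h0⟩
  -- equal powers of the eigenvalues make the power scalar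
  have key : ∀ k : ℕ, a ^ k = b ^ k → orderOf (ProjGenLinGroup.mk A) ∣ k := fun k hk => by
    refine orderOf_dvd_of_pow_eq_one (FA.Klein.map_injective i ?_)
    rw [map_pow, map_one, ProjGenLinGroup.map_mk, ← map_pow, ProjGenLinGroup.mk_eq_one]
    have hpow : ∀ m, (B : Matrix (Fin 2) (Fin 2) (AlgebraicClosure (ZMod p))) ^ m *ᵥ v =
        a ^ m • v := fun m => by
      induction m with
      | zero => simp
      | succ m ih => rw [pow_succ, ← mulVec_mulVec, hva, mulVec_smul, ih, smul_smul, pow_succ']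
    refine FA.Klein.mem_center_of_sq_eq_det he' ?_ hv (a := a ^ k) ?_ ?_
    · rw [← pow_mul, mul_comm, pow_mul, hBe, one_pow]
    · rw [Units.val_pow_eq_pow_val, hpow]
    · rw [Units.val_pow_eq_pow_val, Matrix.det_pow, hB, ← RingHom.mapMatrix_apply,
        ← RingHom.map_det, ← hd, ← hab, mul_pow, ← hk]
  -- the Frobenius permutes the two eigenvalues
  have hroot : (a ^ p - a) * (a ^ p - b) = 0 := by
    have h := congrArg (fun x => x ^ p) hab
    simp only [mul_pow, hb, sub_pow_char, ht, hd, hfrob] at h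
    linear_combination -h + hab
  have hbp : b ^ p = t - a ^ p := by rw [hb, sub_pow_char, ht, hfrob]
  have hpos := hp.out.one_lt
  rcases mul_eq_zero.1 hroot with h | h
  · have h1 : a ^ p = a := sub_eq_zero.1 h
    refine Or.inl (key _ ?_)
    have h2 : b ^ p = b := by rw [hbp, h1]
    have : ∀ x : AlgebraicClosure (ZMod p), x ≠ 0 → x ^ p = x → x ^ (p - 1) = 1 :=
      fun x hx hxp => mul_right_cancel₀ hx (by rw [← pow_succ, Nat.sub_add_cancel hpos.le, hxp,
        one_mul])
    rw [this a ha0 h1, this b hb0 h2]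
  · have h1 : a ^ p = b := sub_eq_zero.1 h
    refine Or.inr (key _ ?_)
    have h2 : b ^ p = a := by rw [hbp, h1, hb, sub_sub_cancel]
    rw [pow_succ, pow_succ, h1, h2, mul_comm]

end FA.DicksonSubgroups

end
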