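import Fermat.Agent.DicksonSubgroups.Borel
import Fermat.Agent.DicksonSubgroups.Orders
import Fermat.Agent.IsogenyNF.TransvectionGroup

/-!
# Dickson's classification of the subgroups of `GL₂(𝔽_p)`

A subgroup with an element of order `p` fixing no line contains `SL₂`, and a subgroup of order
prime to `p` has one of Klein's five projective images, with element orders dividing `p ± 1`.
-/

set_option autoImplicit false
set_option linter.style.haveILetI false

noncomputable section

open Matrix
open scoped MatrixGroups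

namespace FA.DicksonSubgroups

variable {p : ℕ} [hp : Fact p.Prime]

/-- The five projective images, the dihedral and icosahedral ones constrained by `p`. -/
def DicksonImage (p : ℕ) (H : Type*) [Group H] : Prop :=
  IsCyclic H ∧ (Nat.card H ∣ p - 1 ∨ Nat.card H ∣ p + 1) ∨
    (∃ n, (n ∣ p - 1 ∨ n ∣ p + 1) ∧ Nonempty (H ≃* DihedralGroup n)) ∨
    Nonempty (H ≃* alternatingGroup (Fin 4)) ∨ Nonempty (H ≃* Equiv.Perm (Fin 4)) ∨
    Nonempty (H ≃* alternatingGroup (Fin 5)) ∧ (p % 5 = 1 ∨ p % 5 = 4)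

/-- An irreducible subgroup with an element of order `p` contains `SL₂`. -/
theorem sl_le_of_dvd {G : Subgroup (GL (Fin 2) (ZMod p))} (hdvd : p ∣ Nat.card G)
    (hirr : ¬ FixesLine G) : Matrix.SpecialLinearGroup.toGL.range ≤ G := by
  obtain ⟨σ, hσ⟩ := exists_prime_orderOf_dvd_card' p hdvd
  let T := (Matrix.toLinAlgEquiv' : Matrix (Fin 2) (Fin 2) (ZMod p) ≃ₐ[ZMod p] _)
  let ρ : G →* ((Fin 2 → ZMod p) →ₗ[ZMod p] (Fin 2 → ZMod p)) :=
    T.toAlgHom.toRingHom.toMonoidHom.comp ((Units.coeHom _).comp G.subtype)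
  have hρ : ∀ g : G, ρ g = T (g : GL (Fin 2) (ZMod p)).val := fun g => rfl
  rintro _ ⟨B, rfl⟩
  obtain ⟨g, hg⟩ := FA.IsogenyNF.exists_eq_of_det_one ρ (Module.finrank_fin_fun _)
    (fun e he => by
      by_contra hall
      refine hirr ⟨e, he, fun A hA => ?_⟩
      by_contra hne
      refine hall ⟨⟨A, hA⟩, fun a h => hne ⟨a, ?_⟩⟩
      simpa [hρ, T] using h)
    (σ := σ)
    (fun h => by
      have h1 : ((σ : G) : GL (Fin 2) (ZMod p)) = 1 :=
        Units.ext (T.injective (h.trans (map_one T).symm))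
      have h2 : σ = 1 := Subtype.ext h1
      rw [h2, orderOf_one] at hσ
      exact hp.out.one_lt.ne hσ)
    (by rw [← map_pow, orderOf_dvd_iff_pow_eq_one.1 (dvd_of_eq hσ), map_one])
    (f := T (B : Matrix (Fin 2) (Fin 2) (ZMod p))) (by
      rw [show T (B : Matrix (Fin 2) (Fin 2) (ZMod p)) = Matrix.toLin' B.1 from rfl,
        LinearMap.det_toLin']
      exact B.det_coe)
  have h1 : Matrix.SpecialLinearGroup.toGL B = g.1 := Units.ext (T.injective (hg ▸ (hρ g)))
  rw [h1]
  exact g.2

/-- Element orders of the projective image of a subgroup of order prime to `p`. -/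
theorem orderOf_image_dvd {G : Subgroup (GL (Fin 2) (ZMod p))} (hG : ¬ p ∣ Nat.card G)
    (h : G.map ProjGenLinGroup.mk) : orderOf h ∣ p - 1 ∨ orderOf h ∣ p + 1 := by
  obtain ⟨A, hA, hAh⟩ := h.2
  rw [← Subgroup.orderOf_coe, ← hAh]
  exact orderOf_mk_dvd hG (congrArg Subtype.val (pow_card_eq_one' (x := (⟨A, hA⟩ : G))))

/-- The projective image of a subgroup of order prime to `p`. -/
theorem dicksonImage_of_not_dvd {G : Subgroup (GL (Fin 2) (ZMod p))} (hG : ¬ p ∣ Nat.card G) :
    DicksonImage p (G.map ProjGenLinGroup.mk) := by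
  have h := FA.Klein.klein_range_invertible G.subtype
    (fun h => hG ((CharP.cast_eq_zero_iff (ZMod p) p _).1 h))
  rw [show (ProjGenLinGroup.mk.comp G.subtype).range = G.map ProjGenLinGroup.mk by
    rw [MonoidHom.range_comp, Subgroup.range_subtype]] at h
  rcases h with hc | ⟨n, ⟨e⟩⟩ | h | h | ⟨⟨e⟩⟩
  · obtain ⟨g, hg⟩ := IsCyclic.exists_ofOrder_eq_natCard (α := G.map ProjGenLinGroup.mk)
    exact Or.inl ⟨hc, hg ▸ orderOf_image_dvd hG g⟩
  · refine Or.inr (Or.inl ⟨n, ?_, ⟨e⟩⟩)
    have := orderOf_image_dvd hG (e.symm (DihedralGroup.r 1))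
    rwa [MulEquiv.orderOf_eq, DihedralGroup.orderOf_r_one] at this
  · exact Or.inr (Or.inr (Or.inl h))
  · exact Or.inr (Or.inr (Or.inr (Or.inl h)))
  · refine Or.inr (Or.inr (Or.inr (Or.inr ⟨⟨e⟩, ?_⟩)))
    haveI : Finite (G.map ProjGenLinGroup.mk) := Finite.of_equiv _ e.symm.toEquiv
    haveI : Fact (Nat.Prime 5) := ⟨by decide⟩
    obtain ⟨x, hx⟩ := exists_prime_orderOf_dvd_card' (G := G.map ProjGenLinGroup.mk) 5 (by
      rw [Nat.card_congr e.toEquiv, nat_card_alternatingGroup, Nat.card_fin]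
      decide)
    have := hx ▸ orderOf_image_dvd hG x
    have := hp.out.one_lt
    omega

/-- **Dickson's classification.** -/
theorem dickson (G : Subgroup (GL (Fin 2) (ZMod p))) :
    Matrix.SpecialLinearGroup.toGL.range ≤ G ∨ FixesLine G ∨
      ¬ p ∣ Nat.card G ∧ DicksonImage p (G.map ProjGenLinGroup.mk) := by
  by_cases hdvd : p ∣ Nat.card G
  · by_cases hl : FixesLine G
    · exact Or.inr (Or.inl hl)
    · exact Or.inl (sl_le_of_dvd hdvd hl)
  · exact Or.inr (Or.inr ⟨hdvd, dicksonImage_of_not_dvd hdvd⟩)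

/-- A subgroup not containing `SL₂` is solvable unless its projective image is `A₅`. -/
theorem isSolvable_or_icosahedral (G : Subgroup (GL (Fin 2) (ZMod p))) :
    Matrix.SpecialLinearGroup.toGL.range ≤ G ∨ Group.IsSolvable G ∨
      Nonempty (G.map ProjGenLinGroup.mk ≃* alternatingGroup (Fin 5)) := by
  rcases dickson G with h | h | ⟨hG, -⟩
  · exact Or.inl h
  · exact Or.inr (Or.inl h.isSolvable)
  · have h := FA.Klein.range_solvable_iff_invertible G.subtype
      (fun h => hG ((CharP.cast_eq_zero_iff (ZMod p) p _).1 h))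
    rw [Subgroup.range_subtype, show (ProjGenLinGroup.mk.comp G.subtype).range =
      G.map ProjGenLinGroup.mk by rw [MonoidHom.range_comp, Subgroup.range_subtype]] at h
    exact Or.inr ((em (Nonempty _)).symm.imp_left h.2)

omit hp in
/-- For `p > 11` the projective images of order prime to `p` have order at most
`p (p - 1) / 2`. -/
theorem card_image_le {H : Type*} [Group H] [Finite H] (h11 : 11 < p) (h : DicksonImage p H) :
    2 * Nat.card H ≤ (p - 1) * p := by
  have hdiv : ∀ n, n ∣ p - 1 ∨ n ∣ p + 1 → n ≤ p + 1 := fun n hn => by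
    rcases hn with hn | hn
    · exact (Nat.le_of_dvd (by omega) hn).trans (by omega)
    · exact Nat.le_of_dvd (by omega) hn
  have h12 : 11 * p ≤ (p - 1) * p := Nat.mul_le_mul (show 11 ≤ p - 1 by omega) le_rfl
  rcases h with ⟨-, hn⟩ | ⟨n, hn, ⟨e⟩⟩ | ⟨⟨e⟩⟩ | ⟨⟨e⟩⟩ | ⟨⟨e⟩, -⟩
  · have := hdiv _ hn
    omega
  · rw [Nat.card_congr e.toEquiv, DihedralGroup.nat_card]
    have := hdiv n hn
    omega
  · rw [Nat.card_congr e.toEquiv, nat_card_alternatingGroup, Nat.card_fin,
      show Nat.factorial 4 / 2 = 12 from rfl]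
    omega
  · rw [Nat.card_congr e.toEquiv, Nat.card_perm, Nat.card_fin,
      show Nat.factorial 4 = 24 from rfl]
    omega
  · rw [Nat.card_congr e.toEquiv, nat_card_alternatingGroup, Nat.card_fin,
      show Nat.factorial 5 / 2 = 60 from rfl]
    omega

/-- The scalars in `SL₂` are `±1`. -/
theorem card_le_two_mul_image (H : Subgroup SL(2, ZMod p)) :
    Nat.card H ≤
      2 * Nat.card ((H.map Matrix.SpecialLinearGroup.toGL).map ProjGenLinGroup.mk) := by
  set π : H →* _ := (ProjGenLinGroup.mk.comp Matrix.SpecialLinearGroup.toGL).comp H.subtype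
  have hrange : π.range = (H.map Matrix.SpecialLinearGroup.toGL).map ProjGenLinGroup.mk := by
    rw [MonoidHom.range_comp, Subgroup.range_subtype, ← Subgroup.map_map]
  rw [← hrange, ← π.ker.card_mul_index, Subgroup.index_ker]
  refine Nat.mul_le_mul_right _ ?_
  have hsub : (Set.range fun g : π.ker => ((g : H) : SL(2, ZMod p)).1) ⊆
      {1, -(1 : Matrix (Fin 2) (Fin 2) (ZMod p))} := by
    rintro _ ⟨g, rfl⟩
    have hg : Matrix.SpecialLinearGroup.toGL (g : H).1 ∈ Subgroup.center _ :=
      ProjGenLinGroup.mk_eq_one.1 (MonoidHom.mem_ker.1 g.2)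
    rw [GeneralLinearGroup.center_eq_range_scalar] at hg
    obtain ⟨u, hu⟩ := hg
    have hval : ((g : H) : SL(2, ZMod p)).1 = (u : ZMod p) • 1 := by
      have h := congrArg Units.val hu
      rw [GeneralLinearGroup.coe_scalar] at h
      refine h.symm.trans ?_
      simp [Matrix.scalar_apply, ← Matrix.smul_one_eq_diagonal]
    have hd := ((g : H) : SL(2, ZMod p)).det_coe
    rw [hval, Matrix.det_smul, Fintype.card_fin, Matrix.det_one, mul_one, sq_eq_one_iff] at hd
    rcases hd with hd | hd <;> simp [hval, hd]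
  have hinj : Function.Injective fun g : π.ker => ((g : H) : SL(2, ZMod p)).1 :=
    fun x y h => Subtype.ext (Subtype.ext (Subtype.ext h))
  rw [← Set.ncard_range_of_injective hinj]
  exact (Set.ncard_le_ncard hsub (Set.toFinite _)).trans
    ((Set.ncard_insert_le _ _).trans (by rw [Set.ncard_singleton]))

/-- **Galois's theorem**: for `p > 11` a proper subgroup of `SL₂(𝔽_p)` has index at least
`p + 1`. -/
theorem galois_sl {H : Subgroup SL(2, ZMod p)} (h11 : 11 < p) (hne : H ≠ ⊤) :
    p + 1 ≤ H.index := by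
  have hle : Nat.card H ≤ (p - 1) * p := by
    rcases dickson (H.map Matrix.SpecialLinearGroup.toGL) with h | h | ⟨-, h⟩
    · refine absurd (top_le_iff.1 fun g _ => ?_) hne
      obtain ⟨x, hx, hxg⟩ := h ⟨g, rfl⟩
      exact Matrix.SpecialLinearGroup.toGL_injective hxg ▸ hx
    · simpa using h.card_le
    · haveI : Finite ((H.map Matrix.SpecialLinearGroup.toGL).map ProjGenLinGroup.mk) :=
        Finite.of_surjective _ (MonoidHom.subgroupMap_surjective _ _)
      exact (card_le_two_mul_image H).trans (card_image_le h11 h)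
  have hmul := H.card_mul_index
  rw [FA.HeckeH1.card_SLF, Nat.card_zmod, mul_comm p (p - 1)] at hmul
  by_contra hlt
  have h1 := Nat.mul_le_mul hle (show H.index ≤ p by omega)
  rw [hmul] at h1
  have := Nat.le_of_mul_le_mul_left h1 (Nat.mul_pos (by omega) (by omega))
  omega

/-- **Galois's theorem on `PSL₂(𝔽_p)`.** -/
theorem galois_psl {K : Subgroup (Matrix.ProjectiveSpecialLinearGroup (Fin 2) (ZMod p))}
    (h11 : 11 < p) (hne : K ≠ ⊤) : p + 1 ≤ K.index := by
  rw [← K.index_comap_of_surjective (f := QuotientGroup.mk' _) (QuotientGroup.mk'_surjective _)]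
  refine galois_sl h11 fun h => hne ?_
  rw [← Subgroup.map_comap_eq_self_of_surjective (f := QuotientGroup.mk' _)
    (QuotientGroup.mk'_surjective _) K, h, Subgroup.map_top_of_surjective _
    (QuotientGroup.mk'_surjective _)]

/-- The bound is attained. -/
theorem exists_index_eq :
    (∃ H : Subgroup SL(2, ZMod p), H.index = p + 1) ∧
      ∃ K : Subgroup (Matrix.ProjectiveSpecialLinearGroup (Fin 2) (ZMod p)), K.index = p + 1 := by
  refine ⟨⟨borel _, by rw [index_borel, Nat.card_zmod]⟩,
    (borel _).map (QuotientGroup.mk' _), ?_⟩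
  rw [Subgroup.index_map_eq _ (QuotientGroup.mk'_surjective _)
    (by rw [QuotientGroup.ker_mk']; exact center_le_borel), index_borel, Nat.card_zmod]

end FA.DicksonSubgroups

end
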